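import Fermat.Statements.S51

set_option autoImplicit false

namespace Fermat.Agent.S51.H591

/-- Core arithmetic: if `n * c^3 = 5^a * m * D` with `a ∈ {1,2}`, `5 ∤ n`, `5 ∤ m`,
then `5 ∣ D` and `5 ∣ c`. -/
lemma five_dvd_of_eq {n m c D : ℤ} {a : ℕ} (ha1 : 1 ≤ a) (ha2 : a ≤ 2)
    (hn : ¬ (5 : ℤ) ∣ n) (hm : ¬ (5 : ℤ) ∣ m)
    (h : n * c ^ 3 = 5 ^ a * m * D) : (5 : ℤ) ∣ D ∧ (5 : ℤ) ∣ c := by
  have hp : Prime (5 : ℤ) := by
    rw [Int.prime_iff_natAbs_prime]; norm_num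
  have h5c : (5 : ℤ) ∣ c := by
    have h1 : (5 : ℤ) ∣ n * c ^ 3 := by
      rw [h]
      obtain ⟨k, rfl⟩ : ∃ k, a = k + 1 := ⟨a - 1, by omega⟩
      exact ⟨5 ^ k * m * D, by ring⟩
    rcases hp.dvd_or_dvd h1 with h2 | h2
    · exact absurd h2 hn
    · exact hp.dvd_of_dvd_pow h2
  refine ⟨?_, h5c⟩
  obtain ⟨k, rfl⟩ := h5c
  have key : (5 : ℤ) ∣ m * D := by
    interval_cases a
    · -- a = 1: n * 125 k^3 = 5 m D  →  m D = 25 n k^3
      have : m * D = 5 * (5 * n * k ^ 3) := by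
        have h' : (5 : ℤ) * (m * D) = 5 * (5 * (5 * n * k ^ 3)) := by
          have := h; ring_nf at this ⊢; linarith
        exact mul_left_cancel₀ (by norm_num) h'
      exact ⟨_, this⟩
    · -- a = 2: n * 125 k^3 = 25 m D  →  m D = 5 n k^3
      have : m * D = 5 * (n * k ^ 3) := by
        have h' : (25 : ℤ) * (m * D) = 25 * (5 * (n * k ^ 3)) := by
          have := h; ring_nf at this ⊢; linarith
        exact mul_left_cancel₀ (by norm_num) h'
      exact ⟨_, this⟩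
  rcases hp.dvd_or_dvd key with h2 | h2
  · exact absurd h2 hm
  · exact h2

/-- (I4) A semistable integral model cannot have `j`-invariant in the `X₀(15)` list. -/
theorem semistable_j_not_mem (W : WeierstrassCurve ℤ) (hW : W.IsSemistableModel)
    (j : ℚ) (hj : j * (W.Δ : ℚ) = (W.c₄ : ℚ) ^ 3)
    (hmem : j = -25/2 ∨ j = -349938025/8 ∨ j = -121945/32 ∨ j = 46969655/32768) :
    False := by
  have h5 : Nat.Prime 5 := by norm_num
  have hss : (5 : ℤ) ∣ W.Δ → ¬ (5 : ℤ) ∣ W.c₄ := fun h => hW 5 h5 (by exact_mod_cast h)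
  have main : ∀ (n m : ℤ) (a : ℕ), 1 ≤ a → a ≤ 2 → ¬ (5 : ℤ) ∣ n → ¬ (5 : ℤ) ∣ m →
      n * W.c₄ ^ 3 = 5 ^ a * m * W.Δ → False := by
    intro n m a ha1 ha2 hn hm h
    obtain ⟨h1, h2⟩ := five_dvd_of_eq ha1 ha2 hn hm h
    exact hss h1 h2
  rcases hmem with rfl | rfl | rfl | rfl
  · -- j = -25/2 : 2 c₄³ = 5² * (-1) * Δ
    refine main 2 (-1) 2 (by norm_num) (by norm_num) (by norm_num) (by norm_num) ?_
    have : ((2 * W.c₄ ^ 3 : ℤ) : ℚ) = ((5 ^ 2 * (-1) * W.Δ : ℤ) : ℚ) := by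
      push_cast; linarith
    exact_mod_cast this
  · -- j = -349938025/8 = -5² 241³ / 2³
    refine main 8 (-13997521) 2 (by norm_num) (by norm_num) (by norm_num) (by norm_num) ?_
    have : ((8 * W.c₄ ^ 3 : ℤ) : ℚ) = ((5 ^ 2 * (-13997521) * W.Δ : ℤ) : ℚ) := by
      push_cast; linarith
    exact_mod_cast this
  · -- j = -121945/32 = -5 29³ / 2⁵
    refine main 32 (-24389) 1 (by norm_num) (by norm_num) (by norm_num) (by norm_num) ?_
    have : ((32 * W.c₄ ^ 3 : ℤ) : ℚ) = ((5 ^ 1 * (-24389) * W.Δ : ℤ) : ℚ) := by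
      push_cast; linarith
    exact_mod_cast this
  · -- j = 46969655/32768 = 5 211³ / 2¹⁵
    refine main 32768 9393931 1 (by norm_num) (by norm_num) (by norm_num) (by norm_num) ?_
    have : ((32768 * W.c₄ ^ 3 : ℤ) : ℚ) = ((5 ^ 1 * 9393931 * W.Δ : ℤ) : ℚ) := by
      push_cast; linarith
    exact_mod_cast this

end Fermat.Agent.S51.H591
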