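import Mathlib

set_option autoImplicit false

namespace Fermat.Agent.S51.H591

/-- No rational number squares to `5`. -/
lemma X015_sq_ne_five (r : ℚ) : r ^ 2 ≠ 5 := by
  intro hr
  have h5 : IsSquare (5 : ℚ) := ⟨r, by rw [← hr]; ring⟩
  rw [Rat.isSquare_iff] at h5
  obtain ⟨⟨k, hk⟩, -⟩ := h5
  have hk' : k * k = 5 := by
    have : ((5 : ℚ)).num = 5 := by norm_num
    rw [this] at hk; exact hk.symm
  have hk2 : k ^ 2 = 5 := by rw [sq]; exact hk'
  have h1 : -3 < k := by nlinarith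
  have h2 : k < 3 := by nlinarith
  interval_cases k <;> omega

lemma X015_quad1_ne (h : ℚ) : h ^ 2 + 4 * h - 1 ≠ 0 := by
  intro hq
  exact X015_sq_ne_five (h + 2) (by linear_combination hq)

lemma X015_quad2_ne (h : ℚ) : h ^ 2 + 10 * h + 5 ≠ 0 := by
  intro hq
  exact X015_sq_ne_five ((h + 5) / 2) (by linear_combination hq / 4)

/-- The curve `C : (t+27)(t+3)^3 h = (h^2+10h+5)^3 t` maps to the plane cubic model of `X₀(15)`. -/
theorem X015_exists_uv (t h : ℚ) (ht : t ≠ 0) (hC : (t+27)*(t+3)^3*h = (h^2+10*h+5)^3*t) :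
    ∃ u v : ℚ, u^2*v + u*v^2 + 5*u*v + 9*u - v = 0 ∧ t*u^2*v^3 = 729 := by
  have hq1 := X015_quad1_ne h
  have hq2 := X015_quad2_ne h
  have ht3 : t + 3 ≠ 0 := by
    intro h3
    have ht' : t = -3 := by linarith
    rw [ht'] at hC
    have : (h^2+10*h+5)^3 = 0 := by linarith
    exact hq2 (pow_eq_zero_iff (by norm_num) |>.mp this)
  have hDu : ((t+3)*(h^2+4*h-1)) ≠ 0 := mul_ne_zero ht3 hq1
  have hE : (t*(h^2+10*h+5)) ≠ 0 := mul_ne_zero ht hq2
  obtain ⟨u, hu⟩ : ∃ u : ℚ, u * (((t+3)*(h^2+4*h-1))) = t^2 + 18*t - 3*h^3 - 39*h^2 - 105*h :=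
    ⟨(t^2 + 18*t - 3*h^3 - 39*h^2 - 105*h) / (((t+3)*(h^2+4*h-1))), div_mul_cancel₀ _ hDu⟩
  obtain ⟨v, hv⟩ : ∃ v : ℚ, v * ((((t+3)*(h^2+4*h-1))) * ((t*(h^2+10*h+5)))) = -10935 - 45*t + 23625*t*h + 19800*t*h^2 + 4995*t*h^3 + 504*t*h^4 + 18*t*h^5 + 3195*t^2*h + 747*t^2*h^2 + 45*t^2*h^3 + 90*t^3*h + 9*t^3*h^2 :=
    ⟨(-10935 - 45*t + 23625*t*h + 19800*t*h^2 + 4995*t*h^3 + 504*t*h^4 + 18*t*h^5 + 3195*t^2*h + 747*t^2*h^2 + 45*t^2*h^3 + 90*t^3*h + 9*t^3*h^2) / ((((t+3)*(h^2+4*h-1))) * ((t*(h^2+10*h+5)))), div_mul_cancel₀ _ (mul_ne_zero hDu hE)⟩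
  refine ⟨u, v, ?_, ?_⟩
  · have key : (u^2*v + u*v^2 + 5*u*v + 9*u - v) * ((((t+3)*(h^2+4*h-1)))^3 * ((t*(h^2+10*h+5)))^2) = 0 := by
      have e1 : (u^2*v + u*v^2 + 5*u*v + 9*u - v) * ((((t+3)*(h^2+4*h-1)))^3 * ((t*(h^2+10*h+5)))^2)
          = (u * (((t+3)*(h^2+4*h-1))))^2 * (v * ((((t+3)*(h^2+4*h-1))) * ((t*(h^2+10*h+5))))) * ((t*(h^2+10*h+5)))
            + (u * (((t+3)*(h^2+4*h-1)))) * (v * ((((t+3)*(h^2+4*h-1))) * ((t*(h^2+10*h+5)))))^2
            + 5 * (u * (((t+3)*(h^2+4*h-1)))) * (v * ((((t+3)*(h^2+4*h-1))) * ((t*(h^2+10*h+5))))) * (((t+3)*(h^2+4*h-1))) * ((t*(h^2+10*h+5)))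
            + 9 * (u * (((t+3)*(h^2+4*h-1)))) * (((t+3)*(h^2+4*h-1)))^2 * ((t*(h^2+10*h+5)))^2
            - (v * ((((t+3)*(h^2+4*h-1))) * ((t*(h^2+10*h+5))))) * (((t+3)*(h^2+4*h-1)))^2 * ((t*(h^2+10*h+5))) := by ring
      rw [e1, hu, hv]
      linear_combination (90*t^4*h^3 + 1800*t^4*h^2 + 9045*t^4*h + 450*t^4 + 45*t^3*h^5 + 1935*t^3*h^4 + 29565*t^3*h^3 + 193950*t^3*h^2 + 469260*t^3*h + 13725*t^3 + 270*t^2*h^6 + 11475*t^2*h^5 + 188595*t^2*h^4 + 1486890*t^2*h^3 + 5534865*t^2*h^2 + 7537995*t^2*h + 86400*t^2 + 810*t*h^7 + 33210*t*h^6 + 546750*t*h^5 + 4578930*t*h^4 + 20295765*t*h^3 + 44357220*t*h^2 + 36489285*t*h - 1219050*t - 492075*h^2 - 6396975*h - 17222625) * hC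
    rcases mul_eq_zero.mp key with h0 | h0
    · exact h0
    · exact absurd h0 (mul_ne_zero (pow_ne_zero _ hDu) (pow_ne_zero _ hE))
  · have key : (t*u^2*v^3 - 729) * ((((t+3)*(h^2+4*h-1)))^5 * ((t*(h^2+10*h+5)))^3) = 0 := by
      have e1 : (t*u^2*v^3 - 729) * ((((t+3)*(h^2+4*h-1)))^5 * ((t*(h^2+10*h+5)))^3)
          = t * (u * (((t+3)*(h^2+4*h-1))))^2 * (v * ((((t+3)*(h^2+4*h-1))) * ((t*(h^2+10*h+5)))))^3 - 729 * (((t+3)*(h^2+4*h-1)))^5 * ((t*(h^2+10*h+5)))^3 := by ring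
      rw [e1, hu, hv]
      linear_combination (729*t^10*h^5 + 21870*t^10*h^4 + 218700*t^10*h^3 + 729000*t^10*h^2 + 10935*t^9*h^6 + 400221*t^9*h^5 + 5500305*t^9*h^4 + 33679800*t^9*h^3 + 77638500*t^9*h^2 + 76545*t^8*h^7 + 3291435*t^8*h^6 + 56330559*t^8*h^5 + 478920195*t^8*h^4 + 2019082140*t^8*h^3 + 3369401550*t^8*h^2 - 1093500*t^8*h + 729*t^7*h^10 + 21870*t^7*h^9 + 408240*t^7*h^8 + 11616615*t^7*h^7 + 249897555*t^7*h^6 + 2933811657*t^7*h^5 + 18542709135*t^7*h^4 + 59632119810*t^7*h^3 + 76094058825*t^7*h^2 - 252234000*t^7*h - 172773*t^6*h^10 - 7818525*t^6*h^9 - 136446930*t^6*h^8 - 1027430730*t^6*h^7 - 626345865*t^6*h^6 + 44219954646*t^6*h^5 + 312619544955*t^6*h^4 + 892251702315*t^6*h^3 + 938609060175*t^6*h^2 - 14453008200*t^6*h + 546750*t^6 - 43740*t^5*h^12 - 3521070*t^5*h^11 - 116072838*t^5*h^10 - 2082691035*t^5*h^9 - 22380456735*t^5*h^8 - 146648125890*t^5*h^7 - 552273498135*t^5*h^6 - 887930367462*t^5*h^5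 + 991276437915*t^5*h^4 + 5790964156245*t^5*h^3 + 5904681737400*t^5*h^2 - 345839386050*t^5*h + 148442625*t^5 - 393660*t^4*h^13 - 26375220*t^4*h^12 - 781808760*t^4*h^11 - 13457857590*t^4*h^10 - 148341421575*t^4*h^9 - 1087439002875*t^4*h^8 - 5319481226535*t^4*h^7 - 16864562591235*t^4*h^6 - 31917579000147*t^4*h^5 - 28245878443485*t^4*h^4 + 2168013362670*t^4*h^3 + 13843689660900*t^4*h^2 - 3710947691025*t^4*h + 15281389125*t^4 - 52488*t^3*h^15 - 4199040*t^3*h^14 - 151821540*t^3*h^13 - 3274201440*t^3*h^12 - 46806502050*t^3*h^11 - 466126290927*t^3*h^10 - 3306689904555*t^3*h^9 - 16785013418685*t^3*h^8 - 60296938187085*t^3*h^7 - 148856586275835*t^3*h^6 - 238147366301757*t^3*h^5 - 218360901614985*t^3*h^4 - 82211869303830*t^3*h^3 - 900949794975*t^3*h^2 - 14566087745775*t^3*h + 418413832875*t^3 + 57572775*t^2*h^10 + 3064643100*t^2*h^9 + 69667486425*t^2*h^8 + 879782860800*t^2*h^7 + 6718277831625*t^2*h^6 + 31594322453625*t^2*h^5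 + 88820332201125*t^2*h^4 + 135540329106375*t^2*h^3 + 84917473783875*t^2*h^2 - 81952630875*t^2*h + 3389154260625*t^2 - 16142520375*t*h^5 - 419705529750*t*h^4 - 3858062369625*t*h^3 - 14689693541250*t*h^2 - 19774587459375*t*h) * hC
    rcases mul_eq_zero.mp key with h0 | h0
    · linarith
    · exact absurd h0 (mul_ne_zero (pow_ne_zero _ hDu) (pow_ne_zero _ hE))

/-- Rational points of `X₀(15)` in the `(t,h)`-model, assuming the descent theorem on
`Y^2 = X(X+9)(X-16)` (the curve `15a1`). -/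
theorem X015_t_of_descent
    (hdesc : ∀ X Y : ℚ, Y^2 = X*(X+9)*(X-16) → X = 0 ∨ X = -9 ∨ X = 16 ∨ X = 36 ∨ X = -4)
    (t h : ℚ) (ht : t ≠ 0)
    (hC : (t+27)*(t+3)^3*h = (h^2+10*h+5)^3*t) :
    t = -2 ∨ t = -729/32 ∨ t = -32 ∨ t = -729/2 := by
  obtain ⟨u, v, hG, hT⟩ := X015_exists_uv t h ht hC
  have hu0 : u ≠ 0 := by
    rintro rfl
    norm_num at hT
  have hv0 : v ≠ 0 := by
    rintro rfl
    norm_num at hT
  have hW : (72*u + 8*u^2*v + 20*u*v)^2 = (-4*u*v)*((-4*u*v)+9)*((-4*u*v)-16) := by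
    linear_combination (64*u^2*v + 576*u) * hG
  -- `u * G = 0` written in terms of `p = u*v`
  have hp : (u*v + 9)*u^2 + 5*(u*v)*u + (u*v)^2 - u*v = 0 := by
    linear_combination u * hG
  rcases hdesc _ _ hW with hX | hX | hX | hX | hX
  · -- X = 0
    exfalso
    have : u * v = 0 := by linarith
    rcases mul_eq_zero.mp this with h0 | h0
    · exact hu0 h0
    · exact hv0 h0
  · -- X = -9 : uv = 9/4, u = -1/2, v = -9/2, t = -32
    have huv : u * v = 9/4 := by linarith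
    rw [huv] at hp
    have h1 : (2*u + 1)^2 = 0 := by linear_combination (16/45) * hp
    have hu : u = -1/2 := by
      have := pow_eq_zero_iff (by norm_num : (2:ℕ) ≠ 0) |>.mp h1
      linarith
    have hv : v = -9/2 := by
      rw [hu] at huv; linarith
    rw [hu, hv] at hT
    right; right; left
    linarith
  · -- X = 16 : uv = -4, u = 2, v = -2, t = -729/32
    have huv : u * v = -4 := by linarith
    rw [huv] at hp
    have h1 : (u - 2)^2 = 0 := by linear_combination (1/5) * hp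
    have hu : u = 2 := by
      have := pow_eq_zero_iff (by norm_num : (2:ℕ) ≠ 0) |>.mp h1
      linarith
    have hv : v = -2 := by
      rw [hu] at huv; linarith
    rw [hu, hv] at hT
    right; left
    linarith
  · -- X = 36 : uv = -9, u = 2, v = -9/2, t = -2
    have huv : u * v = -9 := by linarith
    rw [huv] at hp
    have hu : u = 2 := by linarith
    have hv : v = -9/2 := by
      rw [hu] at huv; linarith
    rw [hu, hv] at hT
    left
    linarith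
  · -- X = -4 : uv = 1, u = -1/2, v = -2, t = -729/2
    have huv : u * v = 1 := by linarith
    rw [huv] at hp
    have h1 : u * (2*u + 1) = 0 := by linear_combination (1/5) * hp
    have hu : u = -1/2 := by
      rcases mul_eq_zero.mp h1 with h0 | h0
      · exact absurd h0 hu0
      · linarith
    have hv : v = -2 := by
      rw [hu] at huv; linarith
    rw [hu, hv] at hT
    right; right; right
    linarith

/-- (I3) The `j`-invariants of the non-cuspidal rational points of `X₀(15)`. -/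
theorem X015_j_of_descent
    (hdesc : ∀ X Y : ℚ, Y^2 = X*(X+9)*(X-16) → X = 0 ∨ X = -9 ∨ X = 16 ∨ X = 36 ∨ X = -4)
    (t h j : ℚ) (ht : t ≠ 0) (_hh : h ≠ 0)
    (h3 : j * t = (t+27)*(t+3)^3) (h5 : j * h = (h^2+10*h+5)^3) :
    j = -25/2 ∨ j = -349938025/8 ∨ j = -121945/32 ∨ j = 46969655/32768 := by
  have hC : (t+27)*(t+3)^3*h = (h^2+10*h+5)^3*t := by
    rw [← h3, ← h5]; ring
  rcases X015_t_of_descent hdesc t h ht hC with rfl | rfl | rfl | rfl
  · left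
    have : j * (-2) = -2 * (-25/2) := by rw [h3]; norm_num
    linarith
  · right; right; right
    have : j * (-729/32) = (-729/32) * (46969655/32768) := by rw [h3]; norm_num
    linarith
  · right; right; left
    have : j * (-32) = -32 * (-121945/32) := by rw [h3]; norm_num
    linarith
  · right; left
    have : j * (-729/2) = (-729/2) * (-349938025/8) := by rw [h3]; norm_num
    linarith

end Fermat.Agent.S51.H591
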