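import Fermat.Statements.S51
import Fermat.Agent.S51.H591.Final
import Fermat.Agent.S51.H591.X015Map

set_option autoImplicit false
open WeierstrassCurve

namespace Fermat.Agent.S51.H591

/-- Assembly of S51 from the three remaining ingredients:
* `hdesc` : the rational points of `15a1 : Y^2 = X(X+9)(X-16)`;
* `I1` : a reducible mod-3 representation gives a rational point of `X₀(3)` above `j`;
* `I2` : a reducible mod-5 representation gives a rational point of `X₀(5)` above `j`. -/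
theorem S51_of_parts
    (hdesc : ∀ X Y : ℚ, Y^2 = X*(X+9)*(X-16) → X = 0 ∨ X = -9 ∨ X = 16 ∨ X = 36 ∨ X = -4)
    (I1 : ∀ W : WeierstrassCurve ℤ, W.Δ ≠ 0 → ¬ W.ModRepIsIrreducible 3 →
      ∃ t : ℚ, t ≠ 0 ∧ (W.c₄ : ℚ)^3 * t = (W.Δ : ℚ) * ((t+27)*(t+3)^3))
    (I2 : ∀ W : WeierstrassCurve ℤ, W.Δ ≠ 0 → ¬ W.ModRepIsIrreducible 5 →
      ∃ h : ℚ, h ≠ 0 ∧ (W.c₄ : ℚ)^3 * h = (W.Δ : ℚ) * (h^2+10*h+5)^3)
    (W : WeierstrassCurve ℤ) (hΔ : W.Δ ≠ 0) (hW : W.IsSemistableModel) :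
    W.ModRepIsIrreducible 3 ∨ W.ModRepIsIrreducible 5 := by
  by_contra hcon
  rw [not_or] at hcon
  obtain ⟨t, ht, h3⟩ := I1 W hΔ hcon.1
  obtain ⟨h, hh, h5⟩ := I2 W hΔ hcon.2
  have hΔ' : (W.Δ : ℚ) ≠ 0 := by exact_mod_cast hΔ
  set j : ℚ := (W.c₄ : ℚ)^3 / (W.Δ : ℚ) with hj
  have hjΔ : j * (W.Δ : ℚ) = (W.c₄ : ℚ)^3 := div_mul_cancel₀ _ hΔ'
  have h3' : j * t = (t+27)*(t+3)^3 := by
    have : (j * t) * (W.Δ : ℚ) = ((t+27)*(t+3)^3) * (W.Δ : ℚ) := by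
      calc (j * t) * (W.Δ : ℚ) = (j * (W.Δ : ℚ)) * t := by ring
        _ = (W.c₄ : ℚ)^3 * t := by rw [hjΔ]
        _ = (W.Δ : ℚ) * ((t+27)*(t+3)^3) := h3
        _ = ((t+27)*(t+3)^3) * (W.Δ : ℚ) := by ring
    exact mul_right_cancel₀ hΔ' this
  have h5' : j * h = (h^2+10*h+5)^3 := by
    have : (j * h) * (W.Δ : ℚ) = ((h^2+10*h+5)^3) * (W.Δ : ℚ) := by
      calc (j * h) * (W.Δ : ℚ) = (j * (W.Δ : ℚ)) * h := by ring
        _ = (W.c₄ : ℚ)^3 * h := by rw [hjΔ]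
        _ = (W.Δ : ℚ) * (h^2+10*h+5)^3 := h5
        _ = ((h^2+10*h+5)^3) * (W.Δ : ℚ) := by ring
    exact mul_right_cancel₀ hΔ' this
  exact semistable_j_not_mem W hW j hjΔ (X015_j_of_descent hdesc t h j ht hh h3' h5')

end Fermat.Agent.S51.H591
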